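/-
P-MW block E (sub-architect helper23): DEFINITIONS for the modular datum.

For a level field `F₀ ⊆ ℚ((q))` and `t ∈ F₀`:
* `FBar F₀ = ℚ̄ · F₀ ⊆ ℚ̄((q))`, `toBar F₀ : F₀ → FBar F₀` (coefficientwise embedding);
* `IntRing K t` : the integral closure of `K[t]` in a function field `F / K` (generic);
* `RatRing F₀ t = IntRing ℚ t` (functions of `F₀` regular outside the poles of `t`),
  `BarRing F₀ t = IntRing ℚ̄ (toBar t)`;
* `ratW F₀ t m`, `barW F₀ t m` : the elements of `q`-order `≥ -m`;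
* `holW K t P m` : the elements of `IntRing K t` of order `≥ -m` at the place `P` (generic);
* `TData F₀ t P` : the hypotheses on `(F₀, t, P)` (`P` = the place of `q`-order, `t` has its only
  pole at `P`);
* `IsIdealDivisor F₀ t P I D` : `D` is the divisor of the ideal `I` of `RatRing F₀ t`
  (normalised to degree `0` by a multiple of `P`).
-/
import Fermat.Agent.H92.MW.ModInterfaces
import Fermat.Agent.H84.FundIdentity
import Fermat.Agent.H23.PlaceBasic

set_option autoImplicit false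

noncomputable section

open ModularCurve AlgebraicCurve IntermediateField
open scoped TensorProduct

namespace Fermat.Agent.H23.MWE

open Fermat.Agent.H92.MW (QQbar MWDatum JQ)

/-! ### Laurent series of bounded pole order -/

theorem mwe_order_add_ge {K : Type} [Field K] {x y : LaurentSeries K} {m : ℕ}
    (hx : -(m : ℤ) ≤ x.order) (hy : -(m : ℤ) ≤ y.order) : -(m : ℤ) ≤ (x + y).order := by
  by_cases h : x + y = 0
  · rw [h, HahnSeries.order_zero]; omega
  · exact le_trans (le_min hx hy) (HahnSeries.min_order_le_order_add h)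

theorem mwe_order_smul_ge {K : Type} [Field K] (c : K) {x : LaurentSeries K} {m : ℕ}
    (hx : -(m : ℤ) ≤ x.order) : -(m : ℤ) ≤ (c • x).order := by
  by_cases hc : c = 0
  · rw [hc, zero_smul, HahnSeries.order_zero]; omega
  by_cases hx0 : x = 0
  · rw [hx0, smul_zero, HahnSeries.order_zero]; omega
  have h1 : c • x = HahnSeries.single (0 : ℤ) c * x := by
    rw [← HahnSeries.C_apply, HahnSeries.C_mul_eq_smul]
  have h2 : (HahnSeries.single (0 : ℤ) c : LaurentSeries K) ≠ 0 :=
    HahnSeries.single_ne_zero hc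
  rw [h1, HahnSeries.order_mul h2 hx0, HahnSeries.order_single hc, zero_add]
  exact hx

/-! ### Generic: the integral closure of `K[t]` -/

/-- The integral closure of `K[t]` in `F`. -/
abbrev IntRing (K : Type) {F : Type} [Field K] [Field F] [Algebra K F] (t : F) : Type :=
  ↥(integralClosure (Algebra.adjoin K ({t} : Set F)) F)

/-- The elements of `IntRing K t` of order `≥ -m` at the place `P`
(recall `P.ord 0 = 0`). -/
def holW (K : Type) {F : Type} [Field K] [Field F] [Algebra K F] (t : F) (P : Place K F)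
    (m : ℕ) : Submodule K (IntRing K t) where
  carrier := {h | -(m : ℤ) ≤ P.ord (h : F)}
  zero_mem' := by
    show -(m : ℤ) ≤ P.ord (0 : F)
    rw [P.ord_zero]; omega
  add_mem' := by
    rintro a b ha hb
    show -(m : ℤ) ≤ P.ord ((a : F) + (b : F))
    by_cases hab : (a : F) + (b : F) = 0
    · rw [hab, P.ord_zero]; omega
    · exact Fermat.Agent.H23.ord_add_ge P hab _ (Or.inr ha) (Or.inr hb)
  smul_mem' := by
    rintro c a ha
    show -(m : ℤ) ≤ P.ord (c • (a : F))
    by_cases hc : c = 0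
    · rw [hc, zero_smul, P.ord_zero]; omega
    by_cases ha0 : (a : F) = 0
    · rw [ha0, smul_zero, P.ord_zero]; omega
    rw [Algebra.smul_def, P.ord_mul ((map_ne_zero _).mpr hc) ha0,
      Fermat.Agent.H23.ord_algebraMap P c, zero_add]
    exact ha

theorem mem_holW {K : Type} {F : Type} [Field K] [Field F] [Algebra K F] {t : F}
    {P : Place K F} {m : ℕ} {h : IntRing K t} :
    h ∈ holW K t P m ↔ -(m : ℤ) ≤ P.ord (h : F) := Iff.rfl

variable (F₀ : IntermediateField ℚ (LaurentSeries ℚ))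

/-- `ℚ̄ · F₀ ⊆ ℚ̄((q))`. -/
abbrev FBar : Type := ↥(laurentBaseChange QQbar F₀)

/-- The coefficientwise embedding `F₀ → ℚ̄ · F₀`. -/
def toBar : ↥F₀ →+* FBar F₀ where
  toFun f := ⟨coeffEmb QQbar (f : LaurentSeries ℚ), coeffEmb_mem_laurentBaseChange QQbar f.2⟩
  map_one' := Subtype.ext (map_one (coeffEmb QQbar))
  map_mul' _ _ := Subtype.ext (map_mul (coeffEmb QQbar) _ _)
  map_zero' := Subtype.ext (map_zero (coeffEmb QQbar))
  map_add' _ _ := Subtype.ext (map_add (coeffEmb QQbar) _ _)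

@[simp]
theorem coe_toBar (f : ↥F₀) :
    ((toBar F₀ f : FBar F₀) : LaurentSeries QQbar) = coeffEmb QQbar (f : LaurentSeries ℚ) := rfl

/-- The absolute Galois group of `ℚ`. -/
abbrev GalQ : Type := QQbar ≃ₐ[ℚ] QQbar

/-- The group of Galois-fixed points of `Pic⁰(ℚ̄ · F₀)`. -/
abbrev JFix : AddSubgroup (Pic0 QQbar (FBar F₀)) :=
  FixedPoints.addSubgroup GalQ (Pic0 QQbar (FBar F₀))

variable (t : ↥F₀)

/-- The functions of `F₀` integral over `ℚ[t]`. -/
abbrev RatRing : Type := IntRing ℚ t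

/-- The functions of `ℚ̄ · F₀` integral over `ℚ̄[t]`. -/
abbrev BarRing : Type := IntRing QQbar (toBar F₀ t)

/-- The elements of `RatRing` of `q`-order `≥ -m` (recall that the order of `0` is `0`). -/
def ratW (m : ℕ) : Submodule ℚ (RatRing F₀ t) where
  carrier := {f | -(m : ℤ) ≤ (((f : ↥F₀) : LaurentSeries ℚ)).order}
  zero_mem' := by
    show -(m : ℤ) ≤ (0 : LaurentSeries ℚ).order
    rw [HahnSeries.order_zero]; omega
  add_mem' := fun {a b} ha hb => mwe_order_add_ge (x := ((a : ↥F₀) : LaurentSeries ℚ))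
    (y := ((b : ↥F₀) : LaurentSeries ℚ)) ha hb
  smul_mem' := fun c a ha => by
    have h : (((c • a : RatRing F₀ t) : ↥F₀) : LaurentSeries ℚ)
        = c • (((a : ↥F₀) : LaurentSeries ℚ)) := by
      rw [Algebra.smul_def, ← HahnSeries.C_mul_eq_smul]
      rfl
    show -(m : ℤ) ≤ ((((c • a : RatRing F₀ t) : ↥F₀) : LaurentSeries ℚ)).order
    rw [h]
    exact mwe_order_smul_ge c (x := ((a : ↥F₀) : LaurentSeries ℚ)) ha

theorem mem_ratW {m : ℕ} {f : RatRing F₀ t} :
    f ∈ ratW F₀ t m ↔ -(m : ℤ) ≤ (((f : ↥F₀) : LaurentSeries ℚ)).order := Iff.rfl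

/-- The elements of `BarRing` of `q`-order `≥ -m`. -/
def barW (m : ℕ) : Submodule QQbar (BarRing F₀ t) where
  carrier := {f | -(m : ℤ) ≤ (((f : FBar F₀) : LaurentSeries QQbar)).order}
  zero_mem' := by
    show -(m : ℤ) ≤ (0 : LaurentSeries QQbar).order
    rw [HahnSeries.order_zero]; omega
  add_mem' := fun {a b} ha hb => mwe_order_add_ge (x := ((a : FBar F₀) : LaurentSeries QQbar))
    (y := ((b : FBar F₀) : LaurentSeries QQbar)) ha hb
  smul_mem' := fun c a ha => by
    have h : (((c • a : BarRing F₀ t) : FBar F₀) : LaurentSeries QQbar)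
        = c • (((a : FBar F₀) : LaurentSeries QQbar)) := by
      rw [Algebra.smul_def, ← HahnSeries.C_mul_eq_smul, HahnSeries.C_apply,
        ← algebraMap_laurentSeries_eq_single]
      rfl
    show -(m : ℤ) ≤ ((((c • a : BarRing F₀ t) : FBar F₀) : LaurentSeries QQbar)).order
    rw [h]
    exact mwe_order_smul_ge c (x := ((a : FBar F₀) : LaurentSeries QQbar)) ha

theorem mem_barW {m : ℕ} {f : BarRing F₀ t} :
    f ∈ barW F₀ t m ↔ -(m : ℤ) ≤ (((f : FBar F₀) : LaurentSeries QQbar)).order :=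
  Iff.rfl

/-- **The hypotheses on `(F₀, t, P)`**: `P` is the place of `q`-order of `ℚ̄ · F₀`, and `t` is a
nonconstant element of `F₀` whose only pole is `P`. -/
structure TData (P : Place QQbar (FBar F₀)) : Prop where
  isInf : ∀ f : FBar F₀, f ≠ 0 → P.ord f = ((f : FBar F₀) : LaurentSeries QQbar).order
  trans_rat : Transcendental ℚ t
  trans_bar : Transcendental QQbar (toBar F₀ t)
  fin_rat : FiniteDimensional ℚ⟮t⟯ ↥F₀
  fin_bar : FiniteDimensional QQbar⟮toBar F₀ t⟯ (FBar F₀)
  pole : P.ord (toBar F₀ t) < 0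
  reg : ∀ Q : Place QQbar (FBar F₀), Q ≠ P → 0 ≤ Q.ord (toBar F₀ t)

/-- `D` is the divisor of the ideal `I` of `RatRing F₀ t`: away from `P`, `D Q` is the minimum of
the orders at `Q` of the elements of `I`; the coefficient at `P` makes the degree `0`. -/
def IsIdealDivisor (P : Place QQbar (FBar F₀)) (I : Ideal (RatRing F₀ t))
    (D : Divisor QQbar (FBar F₀)) : Prop :=
  Divisor.degree D = 0 ∧ ∀ Q : Place QQbar (FBar F₀), Q ≠ P →
    (∀ f ∈ I, f ≠ 0 → D Q ≤ Q.ord (toBar F₀ (f : ↥F₀))) ∧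
    ∃ f ∈ I, f ≠ 0 ∧ Q.ord (toBar F₀ (f : ↥F₀)) = D Q

end Fermat.Agent.H23.MWE

end
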