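/-
P-MW block E (sub-architect helper23): INTERFACES.  `Prop`-valued statements only; every
`...Statement` is a row `MW-E-*` of the subtasks table (project P-MW).  The assembly
`Fermat.Agent.H23.MWE.Assembly` proves `Fermat.Agent.H92.MW.ModularDatumStatement` from them.

NOTATION (see `Defs`): `F₀ ⊆ ℚ((q))` a level field, `FBar F₀ = ℚ̄ · F₀`, `toBar : F₀ → FBar F₀`,
`t ∈ F₀`, `RatRing F₀ t` / `BarRing F₀ t` = integral closure of `ℚ[t]` in `F₀` / of `ℚ̄[t]` in
`FBar F₀`, `ratW`, `barW` = elements of `q`-order `≥ -m`, `P` = the place of `q`-order,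
`TData F₀ t P` = the hypotheses (`t` nonconstant with its only pole at `P`).
CONVENTIONS: `Place.ord 0 = 0`, `HahnSeries.order 0 = 0`; the Galois group acts on `FBar F₀`
through `ModularCurve.arithmeticGalois F₀` (coefficientwise).
-/
import Fermat.Agent.H23.MWE.Defs
import Fermat.Prelude.Def_AlgebraicCurve_Repartitions

set_option autoImplicit false

noncomputable section

open ModularCurve AlgebraicCurve IntermediateField
open scoped TensorProduct nonZeroDivisors

namespace Fermat.Agent.H23.MWE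

open Fermat.Agent.H92.MW (QQbar MWDatum JQ)

/-! ## MW-E-DESC : Galois descent inside `ℚ̄((q))` (no hypothesis on `F₀`) -/

/-- **MW-E-DESC (1)**: `ℚ`-linearly independent elements of `F₀` stay linearly independent over
`ℚ̄` (i.e. `ℚ̄ ⊗ F₀ → ℚ̄ · F₀` is injective). -/
def LinDisjStatement : Prop :=
  ∀ (F₀ : IntermediateField ℚ (LaurentSeries ℚ)) (ι : Type) (f : ι → ↥F₀),
    LinearIndependent ℚ f → LinearIndependent QQbar (fun i => toBar F₀ (f i))

/-- **MW-E-DESC (2)**: a `ℚ̄`-subspace of `ℚ̄ · F₀` which is stable under the coefficientwise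
Galois action is spanned by its rational elements. -/
def DescentStatement : Prop :=
  ∀ (F₀ : IntermediateField ℚ (LaurentSeries ℚ)) (V : Submodule QQbar (FBar F₀)),
    (∀ (σ : GalQ) (v : FBar F₀), v ∈ V → arithmeticGalois F₀ σ • v ∈ V) →
    ∀ v ∈ V, v ∈ Submodule.span QQbar {w : FBar F₀ | w ∈ V ∧ ∃ f : ↥F₀, toBar F₀ f = w}

/-- **MW-E-DESC (3)**: the Galois-fixed elements of `ℚ̄ · F₀` are the elements of `F₀`. -/
def FixedStatement : Prop :=
  ∀ (F₀ : IntermediateField ℚ (LaurentSeries ℚ)) (v : FBar F₀),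
    (∀ σ : GalQ, arithmeticGalois F₀ σ • v = v) → ∃ f : ↥F₀, toBar F₀ f = v

/-! ## MW-E-ISO : `ℚ̄ ⊗ RatRing = BarRing` -/

/-- **MW-E-ISO**: the natural map `ℚ̄ ⊗[ℚ] RatRing F₀ t → BarRing F₀ t`, `c ⊗ r ↦ c • toBar r`, is
an isomorphism of `ℚ̄`-algebras, and it maps the base change of `ratW m` onto `barW m`.
(No hypothesis on `t`.) -/
def BarIsoStatement : Prop :=
  ∀ (F₀ : IntermediateField ℚ (LaurentSeries ℚ)) (t : ↥F₀),
    ∃ Ψ : (QQbar ⊗[ℚ] RatRing F₀ t) ≃ₐ[QQbar] BarRing F₀ t,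
      (∀ (c : QQbar) (r : RatRing F₀ t),
        ((Ψ (c ⊗ₜ[ℚ] r) : BarRing F₀ t) : FBar F₀) = c • toBar F₀ (r : ↥F₀)) ∧
      ∀ m : ℕ, Submodule.map Ψ.toLinearMap ((ratW F₀ t m).baseChange QQbar) = barW F₀ t m

/-! ## MW-E-HOL : the holomorphy ring over an algebraically closed field (generic) -/

/-- `t` is a nonconstant element of the function field `F / K` whose only pole is `P`. -/
structure SinglePole (K : Type) {F : Type} [Field K] [Field F] [Algebra K F] (t : F)
    (P : Place K F) : Prop where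
  trans : Transcendental K t
  fin : FiniteDimensional K⟮t⟯ F
  pole : P.ord t < 0
  reg : ∀ Q : Place K F, Q ≠ P → 0 ≤ Q.ord t

/-- **MW-E-HOL-ID**: ideals of the holomorphy ring `IntRing K t` are effective divisors away from
`P`: `J = {h | ord_Q h ≥ D Q for all Q ≠ P}`, the minima are attained, and
`dim_K (IntRing K t ⧸ J) = deg D`. -/
def HolIdealStatement : Prop :=
  ∀ (K F : Type) [Field K] [IsAlgClosed K] [CharZero K] [Field F] [Algebra K F] (t : F)
    (P : Place K F), SinglePole K t P →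
    ∀ J : Ideal (IntRing K t), J ≠ ⊥ →
      ∃ D : Divisor K F, D P = 0 ∧ 0 ≤ D ∧
        (∀ h : IntRing K t, h ∈ J ↔ h = 0 ∨ ∀ Q : Place K F, Q ≠ P → D Q ≤ Q.ord (h : F)) ∧
        (∀ Q : Place K F, Q ≠ P → ∃ h ∈ J, h ≠ 0 ∧ Q.ord (h : F) = D Q) ∧
        Module.Finite K (IntRing K t ⧸ J) ∧
        (Module.finrank K (IntRing K t ⧸ J) : ℤ) = Divisor.degree D

/-- **MW-E-HOL-DIV**: conversely every effective divisor away from `P` is the divisor of a nonzero
ideal of `IntRing K t`. -/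
def HolDivisorStatement : Prop :=
  ∀ (K F : Type) [Field K] [IsAlgClosed K] [CharZero K] [Field F] [Algebra K F] (t : F)
    (P : Place K F), SinglePole K t P →
    ∀ D : Divisor K F, D P = 0 → 0 ≤ D →
      ∃ J : Ideal (IntRing K t), J ≠ ⊥ ∧
        (∀ h : IntRing K t, h ∈ J ↔ h = 0 ∨ ∀ Q : Place K F, Q ≠ P → D Q ≤ Q.ord (h : F)) ∧
        (∀ Q : Place K F, Q ≠ P → ∃ h ∈ J, h ≠ 0 ∧ Q.ord (h : F) = D Q)

/-- **MW-E-HOL-RR**: Riemann-Roch for `L(m P - D_J)`, `J` a nonzero ideal of `IntRing K t`. -/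
def HolRRStatement : Prop :=
  ∀ (K F : Type) [Field K] [IsAlgClosed K] [CharZero K] [Field F] [Algebra K F] (t : F)
    (P : Place K F), SinglePole K t P →
    ∃ m₀ : ℕ, ∀ J : Ideal (IntRing K t), J ≠ ⊥ →
      Module.Finite K (IntRing K t ⧸ J) ∧
      ∀ m : ℕ, Module.finrank K (IntRing K t ⧸ J) + m₀ ≤ m →
        Module.finrank K ↥(holW K t P m ⊓ J.restrictScalars K)
          + Module.finrank K (IntRing K t ⧸ J) + genusFF K F = m + 1

/-! ## MW-E-RATW : the rational ring and its filtration -/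

/-- **MW-E-RATW**: the elementary facts about `RatRing F₀ t` and `ratW F₀ t`. -/
def RatWStatement : Prop :=
  ∀ (F₀ : IntermediateField ℚ (LaurentSeries ℚ)) (t : ↥F₀) (P : Place QQbar (FBar F₀)),
    TData F₀ t P →
    Algebra.FiniteType ℚ (RatRing F₀ t) ∧ ¬ IsField (RatRing F₀ t) ∧
    ratW F₀ t 0 = 1 ∧
    (∀ m m' : ℕ, ratW F₀ t m * ratW F₀ t m' ≤ ratW F₀ t (m + m')) ∧
    (∀ f : RatRing F₀ t, ∃ m : ℕ, f ∈ ratW F₀ t m) ∧
    (∀ m : ℕ, Module.Finite ℚ (ratW F₀ t m)) ∧
    (∀ m : ℕ, Module.finrank ℚ (ratW F₀ t (m + 1)) ≤ Module.finrank ℚ (ratW F₀ t m) + 1)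

/-! ## MW-E-T : existence of `t` for `X₀(N)` -/

/-- **MW-E-T**: the function field of `X₀(N)` over `ℚ` contains a nonconstant function whose only
pole is the cusp `∞` (the place of `q`-order). -/
def TDataExistsStatement : Prop :=
  ∀ (N : ℕ) [NeZero N],
    ∃ (t : ↥(modularFunctionFieldFull N))
      (P : Place QQbar (FBar (modularFunctionFieldFull N))),
      TData (modularFunctionFieldFull N) t P

/-! ## MW-E-DICT : the dictionary `Cl(RatRing) = J(ℚ)` -/

/-- **MW-E-D-EX**: every nonzero ideal has a divisor. -/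
def IdealDivisorExistsStatement : Prop :=
  ∀ (F₀ : IntermediateField ℚ (LaurentSeries ℚ)) (t : ↥F₀) (P : Place QQbar (FBar F₀)),
    TData F₀ t P → ∀ I : Ideal (RatRing F₀ t), I ≠ ⊥ → ∃ D, IsIdealDivisor F₀ t P I D

/-- **MW-E-D-UNIQ**: the divisor of an ideal is unique. -/
def IdealDivisorUniqueStatement : Prop :=
  ∀ (F₀ : IntermediateField ℚ (LaurentSeries ℚ)) (t : ↥F₀) (P : Place QQbar (FBar F₀)),
    TData F₀ t P → ∀ (I : Ideal (RatRing F₀ t)) (D D' : Divisor QQbar (FBar F₀)),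
      IsIdealDivisor F₀ t P I D → IsIdealDivisor F₀ t P I D' → D = D'

/-- **MW-E-D-MUL**: the divisor of a product is the sum of the divisors. -/
def IdealDivisorMulStatement : Prop :=
  ∀ (F₀ : IntermediateField ℚ (LaurentSeries ℚ)) (t : ↥F₀) (P : Place QQbar (FBar F₀)),
    TData F₀ t P → ∀ (I J : Ideal (RatRing F₀ t)) (D E : Divisor QQbar (FBar F₀)),
      IsIdealDivisor F₀ t P I D → IsIdealDivisor F₀ t P J E →
        IsIdealDivisor F₀ t P (I * J) (D + E)

/-- **MW-E-D-GAL**: the divisor of an ideal is Galois-invariant. -/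
def IdealDivisorGaloisStatement : Prop :=
  ∀ (F₀ : IntermediateField ℚ (LaurentSeries ℚ)) (t : ↥F₀) (P : Place QQbar (FBar F₀)),
    TData F₀ t P → ∀ (I : Ideal (RatRing F₀ t)) (D : Divisor QQbar (FBar F₀)),
      IsIdealDivisor F₀ t P I D → ∀ σ : GalQ, arithmeticGalois F₀ σ • D = D

/-- **MW-E-D-MEM**: an ideal is determined by its divisor. -/
def IdealDivisorMemStatement : Prop :=
  ∀ (F₀ : IntermediateField ℚ (LaurentSeries ℚ)) (t : ↥F₀) (P : Place QQbar (FBar F₀)),
    TData F₀ t P → ∀ (I : Ideal (RatRing F₀ t)) (D : Divisor QQbar (FBar F₀)),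
      IsIdealDivisor F₀ t P I D →
      ∀ f : RatRing F₀ t, f ∈ I ↔
        f = 0 ∨ ∀ Q : Place QQbar (FBar F₀), Q ≠ P → D Q ≤ Q.ord (toBar F₀ (f : ↥F₀))

/-- **MW-E-D-PRIN**: an ideal is principal iff its divisor is principal. -/
def IdealDivisorPrincipalStatement : Prop :=
  ∀ (F₀ : IntermediateField ℚ (LaurentSeries ℚ)) (t : ↥F₀) (P : Place QQbar (FBar F₀)),
    TData F₀ t P → ∀ (I : Ideal (RatRing F₀ t)) (D : Divisor QQbar (FBar F₀)),
      IsIdealDivisor F₀ t P I D →
      (D ∈ Divisor.principal (K := QQbar) (F := FBar F₀) ↔ Submodule.IsPrincipal I)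

/-- **MW-E-D-SURJ**: every Galois-fixed class of degree `0` is the class of the divisor of a
nonzero ideal. -/
def IdealDivisorSurjStatement : Prop :=
  ∀ (F₀ : IntermediateField ℚ (LaurentSeries ℚ)) (t : ↥F₀) (P : Place QQbar (FBar F₀)),
    TData F₀ t P → ∀ x : Pic0 QQbar (FBar F₀), (∀ σ : GalQ, σ • x = x) →
      ∃ (I : Ideal (RatRing F₀ t)) (D : Divisor QQbar (FBar F₀))
        (h : IsIdealDivisor F₀ t P I D), I ≠ ⊥ ∧
        Pic0.mk ⟨D, Divisor.mem_degZero.mpr h.1⟩ = x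

/-! ## MW-E-GRP : class groups (Mathlib only) -/

/-- **MW-E-GRP**: a multiplicative map from the nonzero ideals of a Dedekind domain onto an
abelian group whose kernel consists of the principal ideals induces an isomorphism from the class
group. -/
def ClassGroupEquivStatement : Prop :=
  ∀ (R : Type) [CommRing R] [IsDedekindDomain R] (G : Type) [AddCommGroup G]
    (φ : (Ideal R)⁰ → G),
    (∀ I J : (Ideal R)⁰, φ (I * J) = φ I + φ J) →
    (∀ I : (Ideal R)⁰, φ I = 0 ↔ Submodule.IsPrincipal (I : Ideal R)) →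
    Function.Surjective φ →
    Nonempty (Additive (ClassGroup R) ≃+ G)

end Fermat.Agent.H23.MWE

end
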