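/-
P-MW block E (helper23): ASSEMBLY, part 1 — basic lemmas.
-/
import Fermat.Agent.H23.MWE.Interfaces

set_option autoImplicit false

noncomputable section

open ModularCurve AlgebraicCurve IntermediateField Module
open scoped TensorProduct nonZeroDivisors

namespace Fermat.Agent.H23.MWE

open Fermat.Agent.H92.MW (QQbar MWDatum JQ)

theorem mwe_order_coeffEmb (x : LaurentSeries ℚ) : (coeffEmb QQbar x).order = x.order := by
  have hinj : Function.Injective (algebraMap ℚ QQbar) := (algebraMap ℚ QQbar).injective
  rcases eq_or_ne x 0 with rfl | hx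
  · rw [map_zero, HahnSeries.order_zero, HahnSeries.order_zero]
  have hne : coeffEmb QQbar x ≠ 0 := by
    intro h
    apply hx
    ext k
    have := congrArg (fun y => HahnSeries.coeff y k) h
    simp only [coeffEmb_coeff, HahnSeries.coeff_zero] at this
    rw [HahnSeries.coeff_zero]
    exact hinj (by rw [this, map_zero])
  apply le_antisymm
  · apply HahnSeries.order_le_of_coeff_ne_zero
    rw [coeffEmb_coeff]
    intro h
    exact hx (HahnSeries.coeff_order_eq_zero.mp (hinj (by rw [h, map_zero])))
  · apply HahnSeries.order_le_of_coeff_ne_zero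
    intro h
    apply hne
    apply HahnSeries.coeff_order_eq_zero.mp
    rw [coeffEmb_coeff, h, map_zero]

theorem mwe_finrank_baseChange {V : Type} [AddCommGroup V] [Module ℚ V] (p : Submodule ℚ V) :
    finrank QQbar ↥(p.baseChange QQbar) = finrank ℚ ↥p := by
  rw [← (Submodule.toBaseChange.toLinearEquiv (A := QQbar) (p := p)).finrank_eq]
  exact Module.finrank_baseChange

variable {F₀ : IntermediateField ℚ (LaurentSeries ℚ)} {t : ↥F₀} {P : Place QQbar (FBar F₀)}

theorem TData.ratRing_dedekind (hT : TData F₀ t P) : IsDedekindDomain (RatRing F₀ t) :=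
  Fermat.Agent.H84.isDedekindDomain_closure t hT.fin_rat

theorem TData.barRing_dedekind (hT : TData F₀ t P) : IsDedekindDomain (BarRing F₀ t) :=
  Fermat.Agent.H84.isDedekindDomain_closure (toBar F₀ t) hT.fin_bar

theorem TData.singlePole (hT : TData F₀ t P) : SinglePole QQbar (toBar F₀ t) P :=
  ⟨hT.trans_bar, hT.fin_bar, hT.pole, hT.reg⟩

theorem TData.ord_eq_order (hT : TData F₀ t P) (f : FBar F₀) :
    P.ord f = ((f : FBar F₀) : LaurentSeries QQbar).order := by
  by_cases hf : f = 0
  · rw [hf, P.ord_zero]
    show (0 : ℤ) = (0 : LaurentSeries QQbar).order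
    rw [HahnSeries.order_zero]
  · exact hT.isInf f hf

theorem TData.barW_eq_holW (hT : TData F₀ t P) (m : ℕ) :
    barW F₀ t m = holW QQbar (toBar F₀ t) P m := by
  ext h
  rw [mem_barW, mem_holW, hT.ord_eq_order]

theorem TData.order_t (hT : TData F₀ t P) : ((t : ↥F₀) : LaurentSeries ℚ).order < 0 := by
  have h := hT.pole
  rw [hT.ord_eq_order, coe_toBar, mwe_order_coeffEmb] at h
  exact h

end Fermat.Agent.H23.MWE

end
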