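/-
P-MW block E (helper23): ASSEMBLY, part 2 — transport along `ℚ̄ ⊗ RatRing ≃ BarRing` and the
construction of the `MWDatum`.
-/
import Fermat.Agent.H23.MWE.Asm1

set_option autoImplicit false
set_option linter.style.haveILetI false
set_option linter.unusedSectionVars false

noncomputable section

open ModularCurve AlgebraicCurve IntermediateField Module
open scoped TensorProduct nonZeroDivisors

namespace Fermat.Agent.H23.MWE

open Fermat.Agent.H92.MW (QQbar MWDatum JQ)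

/-- Transport of quotients and of intersections along an algebra isomorphism. -/
theorem mwe_transport {K A B : Type} [Field K] [CommRing A] [CommRing B] [Algebra K A]
    [Algebra K B] (Ψ : A ≃ₐ[K] B) (WA : Submodule K A) (WB : Submodule K B)
    (hW : Submodule.map Ψ.toLinearMap WA = WB) (I : Ideal A) :
    (Module.Finite K (B ⧸ I.map (Ψ : A →+* B)) → Module.Finite K (A ⧸ I)) ∧
    finrank K (A ⧸ I) = finrank K (B ⧸ I.map (Ψ : A →+* B)) ∧
    finrank K ↥(WA ⊓ I.restrictScalars K) =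
      finrank K ↥(WB ⊓ (I.map (Ψ : A →+* B)).restrictScalars K) := by
  let e : (A ⧸ I) ≃ₐ[K] (B ⧸ I.map (Ψ : A →+* B)) := Ideal.quotientEquivAlg I _ Ψ rfl
  refine ⟨fun h => Module.Finite.equiv e.symm.toLinearEquiv, e.toLinearEquiv.finrank_eq, ?_⟩
  have hmap : Submodule.map Ψ.toLinearMap (I.restrictScalars K)
      = (I.map (Ψ : A →+* B)).restrictScalars K := by
    ext y
    simp only [Submodule.mem_map, Submodule.restrictScalars_mem]
    constructor
    · rintro ⟨x, hx, rfl⟩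
      exact Ideal.mem_map_of_mem _ hx
    · intro hy
      have := (Ideal.mem_map_of_equiv (Ψ : A ≃+* B) y).mp hy
      obtain ⟨x, hx, rfl⟩ := this
      exact ⟨x, hx, rfl⟩
  have h2 : Submodule.map Ψ.toLinearMap (WA ⊓ I.restrictScalars K)
      = WB ⊓ (I.map (Ψ : A →+* B)).restrictScalars K := by
    rw [Submodule.map_inf _ Ψ.injective, hW, hmap]
  rw [← h2]
  exact (LinearEquiv.finrank_map_eq Ψ.toLinearEquiv _).symm

/-- Dedekind domains are stable under ring isomorphisms. -/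
theorem mwe_isDedekindDomain_of_equiv {A B : Type} [CommRing A] [CommRing B] (e : A ≃+* B)
    [IsDedekindDomain B] : IsDedekindDomain A := by
  have h1 : IsDomain A := MulEquiv.isDomain B e.toMulEquiv
  have h2 : IsNoetherianRing A := isNoetherianRing_of_ringEquiv B e.symm
  have h3 : Ring.DimensionLEOne A := Ring.DimensionLEOne.of_ringEquiv e
  have h4 : IsIntegrallyClosed A := IsIntegrallyClosed.of_equiv e.symm
  exact { }

variable {F₀ : IntermediateField ℚ (LaurentSeries ℚ)} {t : ↥F₀} {P : Place QQbar (FBar F₀)}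

/-- `t` as an element of `RatRing F₀ t`. -/
def tElt (F₀ : IntermediateField ℚ (LaurentSeries ℚ)) (t : ↥F₀) : RatRing F₀ t :=
  algebraMap (Algebra.adjoin ℚ ({t} : Set ↥F₀)) _ (Fermat.Agent.H84.genA (K := ℚ) t)

@[simp] theorem coe_tElt : ((tElt F₀ t : RatRing F₀ t) : ↥F₀) = t := rfl

theorem ratW_mono (F₀ : IntermediateField ℚ (LaurentSeries ℚ)) (t : ↥F₀) :
    Monotone (ratW F₀ t) := by
  intro m m' h f hf
  rw [mem_ratW] at hf ⊢
  have : (m : ℤ) ≤ m' := by exact_mod_cast h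
  omega

/-- The pole order of `t`. -/
def tPole (F₀ : IntermediateField ℚ (LaurentSeries ℚ)) (t : ↥F₀) : ℕ :=
  (-(((t : ↥F₀) : LaurentSeries ℚ).order)).toNat

theorem TData.tPole_pos (hT : TData F₀ t P) : 0 < tPole F₀ t := by
  have := hT.order_t
  unfold tPole
  omega

theorem TData.tElt_mem (hT : TData F₀ t P) : tElt F₀ t ∈ ratW F₀ t (tPole F₀ t) := by
  have := hT.order_t
  rw [mem_ratW, coe_tElt]
  unfold tPole
  omega

theorem TData.tElt_not_mem (hT : TData F₀ t P) : tElt F₀ t ∉ ratW F₀ t (tPole F₀ t - 1) := by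
  have := hT.order_t
  have h2 := hT.tPole_pos
  rw [mem_ratW, coe_tElt]
  unfold tPole at h2 ⊢
  omega

/-! ### The generic construction -/

section Core

variable {R : Type} [CommRing R] [Algebra ℚ R] [IsDedekindDomain R]
  {B : Type} [CommRing B] [Algebra QQbar B] [IsDedekindDomain B]
  (W : ℕ → Submodule ℚ R) (WB : ℕ → Submodule QQbar B)
  (Ψ : (QQbar ⊗[ℚ] R) ≃ₐ[QQbar] B)
  (hW : ∀ m : ℕ, Submodule.map Ψ.toLinearMap ((W m).baseChange QQbar) = WB m)

include hW in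
theorem core_mem_baseChange_iff (m : ℕ) (x : QQbar ⊗[ℚ] R) :
    x ∈ (W m).baseChange QQbar ↔ Ψ x ∈ WB m := by
  rw [← hW m]
  constructor
  · intro hx
    exact Submodule.mem_map_of_mem hx
  · rintro ⟨y, hy, hyx⟩
    have : y = x := Ψ.injective hyx
    rwa [this] at hy

include hW in
theorem core_finrank_eq (m : ℕ) : finrank ℚ (W m) = finrank QQbar (WB m) := by
  rw [← mwe_finrank_baseChange, ← hW m]
  exact (LinearEquiv.finrank_map_eq Ψ.toLinearEquiv _).symm

include hW in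
/-- **The datum**, generic form. -/
theorem exists_datum_core (g m₀ : ℕ) (tR : R) (e : ℕ)
    (hval : ∀ (a b : B) (m m' : ℕ), a ∉ WB m → b ∉ WB m' → a * b ∉ WB (m + m' + 1))
    (hRR : ∀ J : Ideal B, J ≠ ⊥ → Module.Finite QQbar (B ⧸ J) ∧
      ∀ m : ℕ, finrank QQbar (B ⧸ J) + m₀ ≤ m →
        finrank QQbar ↥(WB m ⊓ J.restrictScalars QQbar) + finrank QQbar (B ⧸ J) + g = m + 1)
    (hNF : ¬ IsField R) (hFT : Algebra.FiniteType ℚ R) (hmono : Monotone W)
    (hW0 : W 0 = 1) (hWmul : ∀ m m' : ℕ, W m * W m' ≤ W (m + m'))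
    (hWex : ∀ f : R, ∃ m : ℕ, f ∈ W m) (hWfin : ∀ m : ℕ, Module.Finite ℚ (W m))
    (hWstep : ∀ m : ℕ, finrank ℚ (W (m + 1)) ≤ finrank ℚ (W m) + 1)
    (he : 0 < e) (ht : tR ∈ W e) (ht' : tR ∉ W (e - 1)) :
    Nonempty (MWDatum R) := by
  have hDedT : IsDedekindDomain (QQbar ⊗[ℚ] R) :=
    mwe_isDedekindDomain_of_equiv (Ψ : (QQbar ⊗[ℚ] R) ≃+* B)
  haveI : Nontrivial B := inferInstance
  refine ⟨{
    W := W
    g := g
    m₀ := m₀
    t := tR
    e := e
    notField := hNF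
    finiteType := hFT
    W_mono := hmono
    W_zero := hW0
    W_mul := hWmul
    W_exhaust := hWex
    W_fin := hWfin
    W_finrank := ?_
    W_step := hWstep
    e_pos := he
    t_mem := ht
    t_not_mem := ht'
    bar_dedekind := hDedT
    bar_val := ?_
    bar_rr := ?_ }⟩
  · intro m hm
    have hJ : (⊤ : Ideal B) ≠ ⊥ := top_ne_bot
    obtain ⟨-, h2⟩ := hRR ⊤ hJ
    have h0 : finrank QQbar (B ⧸ (⊤ : Ideal B)) = 0 := by
      haveI : Subsingleton (B ⧸ (⊤ : Ideal B)) := Ideal.Quotient.subsingleton_iff.mpr rfl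
      exact Module.finrank_zero_of_subsingleton
    have h3 := h2 m (by rw [h0]; omega)
    rw [h0, add_zero] at h3
    have h4 : WB m ⊓ (⊤ : Ideal B).restrictScalars QQbar = WB m := by
      ext x
      simp
    rw [h4] at h3
    rw [core_finrank_eq W WB Ψ hW]
    exact h3
  · intro a b m m' ha hb
    rw [core_mem_baseChange_iff W WB Ψ hW] at ha hb ⊢
    rw [map_mul]
    exact hval _ _ m m' ha hb
  · intro I hI
    have hJ : I.map (Ψ : (QQbar ⊗[ℚ] R) →+* B) ≠ ⊥ := by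
      intro h
      apply hI
      rw [eq_bot_iff]
      intro x hx
      have : Ψ x ∈ I.map (Ψ : (QQbar ⊗[ℚ] R) →+* B) := Ideal.mem_map_of_mem _ hx
      rw [h, Ideal.mem_bot] at this
      rw [Ideal.mem_bot]
      exact Ψ.injective (by rw [this, map_zero])
    obtain ⟨hf, h2⟩ := hRR _ hJ
    obtain ⟨hfin, -, -⟩ := mwe_transport Ψ ((W 0).baseChange QQbar) (WB 0) (hW 0) I
    refine ⟨hfin hf, fun m hm => ?_⟩
    obtain ⟨-, hfr', hinf'⟩ := mwe_transport Ψ ((W m).baseChange QQbar) (WB m) (hW m) I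
    rw [hfr'] at hm ⊢
    rw [hinf']
    exact h2 m hm

end Core

/-- The pole order at `P` is a valuation on `IntRing K t`. -/
theorem holW_val {K F : Type} [Field K] [Field F] [Algebra K F] (t : F) (P : Place K F)
    (a b : IntRing K t) (m m' : ℕ) (ha : a ∉ holW K t P m) (hb : b ∉ holW K t P m') :
    a * b ∉ holW K t P (m + m' + 1) := by
  rw [mem_holW] at ha hb ⊢
  have ha0 : (a : F) ≠ 0 := by
    intro h
    rw [h, P.ord_zero] at ha
    omega
  have hb0 : (b : F) ≠ 0 := by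
    intro h
    rw [h, P.ord_zero] at hb
    omega
  show ¬ (-((m + m' + 1 : ℕ) : ℤ) ≤ P.ord ((a : F) * (b : F)))
  rw [P.ord_mul ha0 hb0]
  push_cast
  omega

/-- **The datum.** -/
theorem exists_datum (hT : TData F₀ t P)
    (hRW : Algebra.FiniteType ℚ (RatRing F₀ t) ∧ ¬ IsField (RatRing F₀ t) ∧
      ratW F₀ t 0 = 1 ∧
      (∀ m m' : ℕ, ratW F₀ t m * ratW F₀ t m' ≤ ratW F₀ t (m + m')) ∧
      (∀ f : RatRing F₀ t, ∃ m : ℕ, f ∈ ratW F₀ t m) ∧
      (∀ m : ℕ, Module.Finite ℚ (ratW F₀ t m)) ∧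
      (∀ m : ℕ, finrank ℚ (ratW F₀ t (m + 1)) ≤ finrank ℚ (ratW F₀ t m) + 1))
    (hΨ : ∃ Ψ : (QQbar ⊗[ℚ] RatRing F₀ t) ≃ₐ[QQbar] BarRing F₀ t,
      (∀ (c : QQbar) (r : RatRing F₀ t),
        ((Ψ (c ⊗ₜ[ℚ] r) : BarRing F₀ t) : FBar F₀) = c • toBar F₀ (r : ↥F₀)) ∧
      ∀ m : ℕ, Submodule.map Ψ.toLinearMap ((ratW F₀ t m).baseChange QQbar) = barW F₀ t m)
    (hRR : HolRRStatement) :
    Nonempty (@MWDatum (RatRing F₀ t) _ _ hT.ratRing_dedekind) := by
  haveI hDed := hT.ratRing_dedekind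
  haveI hDedB := hT.barRing_dedekind
  obtain ⟨hFT, hNF, hW0, hWmul, hWex, hWfin, hWstep⟩ := hRW
  obtain ⟨Ψ, -, hW⟩ := hΨ
  obtain ⟨m₀, hRR⟩ := hRR QQbar (FBar F₀) (toBar F₀ t) P hT.singlePole
  have hW' : ∀ m : ℕ, Submodule.map Ψ.toLinearMap ((ratW F₀ t m).baseChange QQbar)
      = holW QQbar (toBar F₀ t) P m := fun m => by rw [hW m, hT.barW_eq_holW]
  exact exists_datum_core (B := BarRing F₀ t) (ratW F₀ t) (holW QQbar (toBar F₀ t) P) Ψ hW'
    (genusFF QQbar (FBar F₀)) m₀ (tElt F₀ t) (tPole F₀ t)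
    (holW_val (toBar F₀ t) P) hRR hNF hFT (ratW_mono F₀ t) hW0 hWmul hWex hWfin hWstep
    hT.tPole_pos hT.tElt_mem hT.tElt_not_mem

end Fermat.Agent.H23.MWE

end
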