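/-
P-MW block E (row 697) — ASSEMBLY (helper23).

`modularDatum_of_ratW : RatWStatement → Fermat.Agent.H92.MW.ModularDatumStatement`:
every other leaf of block E is landed and plugged in here:
* `H15.MWE.descent`, `H69.MWE.linDisj`, `H69.MWE.fixed` (rows 906, 907),
* `H33.MWE.barIso` (row 908), `H48.MWE.holIdeal` (909), `H5.MWE.holRR` (911),
* `H34.MWE.tDataExists` (913), `H53.dictEquiv` (the dictionary, rows 914-918).
-/
import Fermat.Agent.H23.MWE.Asm2
import Fermat.Agent.H53.MWE.DictInst
import Fermat.Agent.H34.MWE.TData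
import Fermat.Agent.H33.MWE.BarIso
import Fermat.Agent.H5.MWE.HolRR
import Fermat.Agent.H48.MWE.HolIdeal
import Fermat.Agent.H69.MWE.Desc1
import Fermat.Agent.H15.MWE.Descent
import Fermat.Agent.H92.MW.ModInterfaces

set_option autoImplicit false

noncomputable section

open ModularCurve AlgebraicCurve IntermediateField
open scoped TensorProduct

namespace Fermat.Agent.H23.MWE

open Fermat.Agent.H92.MW (QQbar MWDatum JQ)

/-- Block E from the single remaining leaf `RatWStatement` (row 912). -/
theorem modularDatum_of_ratW (hRW : RatWStatement) :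
    Fermat.Agent.H92.MW.ModularDatumStatement := by
  intro N _ _ _
  obtain ⟨t, P, hT⟩ := Fermat.Agent.H34.MWE.tDataExists Fermat.Agent.H15.MWE.descent N
  have hΨ := Fermat.Agent.H33.MWE.barIso Fermat.Agent.H69.MWE.linDisj
    Fermat.Agent.H15.MWE.descent (modularFunctionFieldFull N) t
  have hRR : HolRRStatement := Fermat.Agent.H5.MWE.holRR Fermat.Agent.H48.MWE.holIdeal
  obtain ⟨𝒞⟩ := exists_datum hT (hRW (modularFunctionFieldFull N) t P hT) hΨ hRR
  have hDed := hT.ratRing_dedekind
  obtain ⟨e⟩ := Fermat.Agent.H53.dictEquiv Fermat.Agent.H69.MWE.fixed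
    Fermat.Agent.H15.MWE.descent (modularFunctionFieldFull N) t P hT
  exact ⟨RatRing (modularFunctionFieldFull N) t, inferInstance, inferInstance, hDed, 𝒞, ⟨e⟩⟩

end Fermat.Agent.H23.MWE

end
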