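/-
P-MW block E (row 697), design B — FINAL (helper23): unconditional
`modularDatum : Fermat.Agent.H92.MW.ModularDatumStatement`
(spare for `Fermat.Agent.H39.MW.modularDatum`, design A).
-/
import Fermat.Agent.H23.MWE.Assembly
import Fermat.Agent.H57.MWE.RatW

set_option autoImplicit false

namespace Fermat.Agent.H23.MWE

/-- **Block E** (design B): `X₀(N)` carries a Mordell-Weil datum whose class group is
`J₀(N)(ℚ)`. -/
theorem modularDatum : Fermat.Agent.H92.MW.ModularDatumStatement :=
  modularDatum_of_ratW Fermat.Agent.H57.MWE.ratW_facts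

end Fermat.Agent.H23.MWE
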